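/-
S12lib / Part / Defs  (helper3) — S12, block (L): the two rational functions of the partition step.

* `Jfun A B = 256 (A² + AB + B²)³ / (AB(A+B))²` : the `j`-invariant of `Y² = X(X − A)(X + B)` in terms
  of two of the three differences `A, B, C = A + B` of its `2`-torsion abscissas;
* `Ffun u v = 16 (u² + 14uv + v²)³ / (uv(u − v)⁴)` : the `j`-invariant of the quotient by the
  `2`-torsion point `T`, in terms of the differences `u = e_j − e_T`, `v = e_k − e_T`.

Both are homogeneous of degree `0`, symmetric, and commute with ring homomorphisms of fields.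
-/
import Mathlib

set_option autoImplicit false

namespace Fermat.Agent.S12lib.Part

variable {K : Type*} [Field K]

/-- `j` of `Y² = X(X − A)(X + B)` -/
def Jfun (A B : K) : K := 256 * (A ^ 2 + A * B + B ^ 2) ^ 3 / (A * B * (A + B)) ^ 2

/-- `j` of the quotient by a `2`-torsion point, in the differences to the two others -/
def Ffun (u v : K) : K := 16 * (u ^ 2 + 14 * u * v + v ^ 2) ^ 3 / (u * v * (u - v) ^ 4)

theorem Jfun_comm (A B : K) : Jfun A B = Jfun B A := by
  unfold Jfun
  congr 1 <;> ring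

theorem Ffun_comm (u v : K) : Ffun u v = Ffun v u := by
  unfold Ffun
  congr 1 <;> ring

theorem Jfun_smul {c : K} (hc : c ≠ 0) (A B : K) : Jfun (c * A) (c * B) = Jfun A B := by
  unfold Jfun
  have h1 : 256 * ((c * A) ^ 2 + c * A * (c * B) + (c * B) ^ 2) ^ 3 =
      c ^ 6 * (256 * (A ^ 2 + A * B + B ^ 2) ^ 3) := by ring
  have h2 : (c * A * (c * B) * (c * A + c * B)) ^ 2 = c ^ 6 * (A * B * (A + B)) ^ 2 := by ring
  rw [h1, h2, mul_div_mul_left _ _ (pow_ne_zero 6 hc)]

theorem Ffun_smul {c : K} (hc : c ≠ 0) (u v : K) : Ffun (c * u) (c * v) = Ffun u v := by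
  unfold Ffun
  have h1 : 16 * ((c * u) ^ 2 + 14 * (c * u) * (c * v) + (c * v) ^ 2) ^ 3 =
      c ^ 6 * (16 * (u ^ 2 + 14 * u * v + v ^ 2) ^ 3) := by ring
  have h2 : c * u * (c * v) * (c * u - c * v) ^ 4 = c ^ 6 * (u * v * (u - v) ^ 4) := by ring
  rw [h1, h2, mul_div_mul_left _ _ (pow_ne_zero 6 hc)]

theorem Jfun_neg (A B : K) : Jfun (-A) (-B) = Jfun A B := by
  have := Jfun_smul (K := K) (c := -1) (by simp) A B
  simpa using this

theorem Ffun_neg (u v : K) : Ffun (-u) (-v) = Ffun u v := by
  have := Ffun_smul (K := K) (c := -1) (by simp) u v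
  simpa using this

section Map

variable {K' : Type*} [Field K'] (f : K →+* K')

theorem map_Jfun (A B : K) : f (Jfun A B) = Jfun (f A) (f B) := by
  have h256 : f 256 = 256 := map_ofNat f 256
  simp [Jfun, map_div₀, h256]

theorem map_Ffun (u v : K) : f (Ffun u v) = Ffun (f u) (f v) := by
  have h16 : f 16 = 16 := map_ofNat f 16
  have h14 : f 14 = 14 := map_ofNat f 14
  simp [Ffun, map_div₀, h16, h14]

end Map

/-- the other two values of `J` at a permuted pair: `J(A, B) = J(A, C)` with `C = −(A + B)`… in the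
form used for the three differences `t₀ + t₁ + t₂ = 0` -/
theorem Jfun_of_sum_zero {t₀ t₁ t₂ : K} (h : t₀ + t₁ + t₂ = 0) : Jfun t₀ t₁ = Jfun t₁ t₂ := by
  have h2 : t₂ = -(t₀ + t₁) := by linear_combination h
  subst h2
  unfold Jfun
  congr 1 <;> ring

end Fermat.Agent.S12lib.Part
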