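/-
S12lib / Part / Lat  (helper3) — S12, block (L), the LATTICE layer of the partition step.

For a lattice `L`, a half-period triple `a : Fin 3 → ℂ` (`EA.IsHalfTriple`), `e i = ℘_L(a i)`:

* `jL_eq_Jfun`   : `j(L) = J(e₁ − e₀, e₀ − e₂)`;
* `jL_two_isog`  : `j(L + ℤ a_i) = F(e_j − e_i, e_k − e_i)` (Vélu's `g₂, g₃` at `p = 2`);
* `wp_super_sub` : `℘_{L'}(x) − ℘_{L'}(y) = ∑_{k<p} (℘_L(x − k z₀) − ℘_L(y − k z₀))` for `L' = L + ℤ z₀`;
* `partner_lat`  : for an odd prime `p` and `L' = L + ℤ z₀` of index `p`: the same triple is a half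
  triple of `L'`, `e'_i − e'_j = D i j := ∑_{k<p} (℘_L(a i + k z₀) − ℘_L(a j + k z₀))`,
  `j(L) = J(e₁ − e₀, e₀ − e₂)`, `j(L') = J(D 1 0, D 0 2)` and
  `Φ_p(F(D j i, D k i), F(e_j − e_i, e_k − e_i)) = 0` for the three `2`-isogenous partners.
-/
import Fermat.Agent.S12lib.Part.Defs
import Fermat.Agent.S15lib.Dict.EA.Super
import Fermat.Agent.S15lib.Dict.LatSum

set_option autoImplicit false
set_option linter.style.haveILetI false

noncomputable section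

open Finset
open scoped PeriodPair

namespace Fermat.Agent.S12lib.Part

open Fermat.Agent.S15lib.Dict Fermat.Agent.S15lib.Dict.EA Fermat.Agent.S15lib.Dict.Lat
open Fermat.Agent.ProgramR.LevelOne
open Fermat.Agent.S28lib Fermat.Agent.S37lib.ConjNorm

/-! ### permuting a half triple -/

theorem isHalfTriple_perm {L : PeriodPair} {a : Fin 3 → ℂ} (h : IsHalfTriple L a) {i j k : Fin 3}
    (hij : i ≠ j) (hik : i ≠ k) (hjk : j ≠ k) : IsHalfTriple L ![a i, a j, a k] where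
  notMem := by
    intro m
    fin_cases m
    · exact h.notMem i
    · exact h.notMem j
    · exact h.notMem k
  two_mul_mem := by
    intro m
    fin_cases m
    · exact h.two_mul_mem i
    · exact h.two_mul_mem j
    · exact h.two_mul_mem k
  sub_notMem := by
    intro m n hmn
    fin_cases m <;> fin_cases n
    · exact absurd rfl hmn
    · exact h.sub_notMem i j hij
    · exact h.sub_notMem i k hik
    · exact h.sub_notMem j i hij.symm
    · exact absurd rfl hmn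
    · exact h.sub_notMem j k hjk
    · exact h.sub_notMem k i hik.symm
    · exact h.sub_notMem k j hjk.symm
    · exact absurd rfl hmn

/-! ### `j(L)` from the half-period values -/

theorem jL_eq_Jfun {L : PeriodPair} {a : Fin 3 → ℂ} (h : IsHalfTriple L a) :
    jL L = Jfun (℘[L] (a 1) - ℘[L] (a 0)) (℘[L] (a 0) - ℘[L] (a 2)) := by
  have s := h.e_sum
  have g2 := h.g₂_eq
  have g3 := h.g₃_eq
  have n01 : ℘[L] (a 0) - ℘[L] (a 1) ≠ 0 := sub_ne_zero.mpr (h.e_ne 0 1 (by decide))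
  have n02 : ℘[L] (a 0) - ℘[L] (a 2) ≠ 0 := sub_ne_zero.mpr (h.e_ne 0 2 (by decide))
  have n12 : ℘[L] (a 1) - ℘[L] (a 2) ≠ 0 := sub_ne_zero.mpr (h.e_ne 1 2 (by decide))
  have hd := h.disc_ne_zero
  have hde := h.disc_eq
  rw [EA.disc] at hd hde
  set e0 := ℘[L] (a 0)
  set e1 := ℘[L] (a 1)
  set e2 := ℘[L] (a 2)
  have n10 : e1 - e0 ≠ 0 := by
    intro h0
    apply n01
    linear_combination -h0
  have hden : ((e1 - e0) * (e0 - e2) * ((e1 - e0) + (e0 - e2))) ^ 2 ≠ 0 := by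
    have : (e1 - e0) + (e0 - e2) = e1 - e2 := by ring
    rw [this]
    exact pow_ne_zero 2 (mul_ne_zero (mul_ne_zero n10 n02) n12)
  rw [jL, Jfun, div_eq_div_iff hd hden, hde, g2]
  have e2eq : e2 = -e0 - e1 := by linear_combination s
  rw [e2eq]
  ring

/-! ### the `2`-isogenous lattices -/

/-- `g₂, g₃` of `L + ℤ a₀` for a half period `a₀` -/
theorem g_two_isog {L M : PeriodPair} {a : Fin 3 → ℂ} (h : IsHalfTriple L a)
    (hM : M.lattice = L.lattice ⊔ Submodule.span ℤ {a 0}) :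
    M.g₂ = 60 * ℘[L] (a 0) ^ 2 - 4 * L.g₂ ∧
      M.g₃ = L.g₃ + 14 * (℘[L] (a 0) * (6 * ℘[L] (a 0) ^ 2 - L.g₂ / 2)) := by
  have hp2 : Nat.Prime 2 := Nat.prime_two
  have hmem : ((2 : ℕ) : ℂ) * a 0 ∈ L.lattice := by
    have := h.two_mul_mem 0
    simpa using this
  have h2 := g₂_superlattice hp2 (h.notMem 0) hmem hM
  have h3 := g₃_superlattice hp2 (h.notMem 0) hmem hM
  have hIcc : Finset.Icc 1 (2 - 1) = {1} := by decide
  rw [hIcc, Finset.sum_singleton] at h2 h3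
  simp only [Nat.cast_one, one_mul] at h2 h3
  rw [h.dwp_eq_zero 0] at h3
  rw [Lat.wpDD] at h2 h3
  refine ⟨?_, ?_⟩
  · rw [h2]; ring
  · rw [h3]; ring

/-- **`j` of the quotient by a `2`-torsion point**, standard ordering -/
theorem jL_two_isog₀ {L M : PeriodPair} {a : Fin 3 → ℂ} (h : IsHalfTriple L a)
    (hM : M.lattice = L.lattice ⊔ Submodule.span ℤ {a 0}) :
    jL M = Ffun (℘[L] (a 1) - ℘[L] (a 0)) (℘[L] (a 2) - ℘[L] (a 0)) := by
  obtain ⟨hg2, hg3⟩ := g_two_isog h hM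
  have s := h.e_sum
  have g2 := h.g₂_eq
  have g3 := h.g₃_eq
  have n01 : ℘[L] (a 0) - ℘[L] (a 1) ≠ 0 := sub_ne_zero.mpr (h.e_ne 0 1 (by decide))
  have n02 : ℘[L] (a 0) - ℘[L] (a 2) ≠ 0 := sub_ne_zero.mpr (h.e_ne 0 2 (by decide))
  have n12 : ℘[L] (a 1) - ℘[L] (a 2) ≠ 0 := sub_ne_zero.mpr (h.e_ne 1 2 (by decide))
  have hd : M.g₂ ^ 3 - 27 * M.g₃ ^ 2 ≠ 0 := Lat.disc_ne_zero M
  set e0 := ℘[L] (a 0)
  set e1 := ℘[L] (a 1)
  set e2 := ℘[L] (a 2)
  have n10 : e1 - e0 ≠ 0 := by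
    intro h0
    apply n01
    linear_combination -h0
  have n20 : e2 - e0 ≠ 0 := by
    intro h0
    apply n02
    linear_combination -h0
  have hden : (e1 - e0) * (e2 - e0) * ((e1 - e0) - (e2 - e0)) ^ 4 ≠ 0 := by
    have : (e1 - e0) - (e2 - e0) = e1 - e2 := by ring
    rw [this]
    exact mul_ne_zero (mul_ne_zero n10 n20) (pow_ne_zero 4 n12)
  have e0eq : e0 = -e1 - e2 := by linear_combination s
  rw [jL, Ffun, div_eq_div_iff hd hden, hg2, hg3, g2, g3, e0eq]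
  ring

/-- **`j` of the quotient by a `2`-torsion point** -/
theorem jL_two_isog {L M : PeriodPair} {a : Fin 3 → ℂ} (h : IsHalfTriple L a) {i j k : Fin 3}
    (hij : i ≠ j) (hik : i ≠ k) (hjk : j ≠ k)
    (hM : M.lattice = L.lattice ⊔ Submodule.span ℤ {a i}) :
    jL M = Ffun (℘[L] (a j) - ℘[L] (a i)) (℘[L] (a k) - ℘[L] (a i)) := by
  have := jL_two_isog₀ (isHalfTriple_perm h hij hik hjk) (M := M) (by simpa using hM)
  simpa using this

/-! ### `℘` of a superlattice -/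

theorem hasSum_wp_sub (L : PeriodPair) (x y : ℂ) :
    HasSum (fun l : L.lattice => 1 / (x - l) ^ 2 - 1 / (y - l) ^ 2) (℘[L] x - ℘[L] y) := by
  have h := (L.hasSum_weierstrassP x).sub (L.hasSum_weierstrassP y)
  have heq : (fun l : L.lattice => 1 / (x - l) ^ 2 - 1 / (y - l) ^ 2) =
      fun l : L.lattice => 1 / (x - l) ^ 2 - 1 / (l : ℂ) ^ 2 - (1 / (y - l) ^ 2 - 1 / (l : ℂ) ^ 2) := by
    funext l
    ring
  rw [heq]
  exact h

/-- `℘_{L'}(x) − ℘_{L'}(y) = ∑_{k<p} (℘_L(x − k z₀) − ℘_L(y − k z₀))` for `L' = L + ℤ z₀` -/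
theorem wp_super_sub {L L' : PeriodPair} {p : ℕ} {z₀ : ℂ} (hp : p.Prime) (hz₀ : z₀ ∉ L.lattice)
    (hpz : (p : ℂ) * z₀ ∈ L.lattice)
    (hL' : L'.lattice = L.lattice ⊔ Submodule.span ℤ {z₀}) (x y : ℂ) :
    ℘[L'] x - ℘[L'] y = ∑ k ∈ Finset.range p, (℘[L] (x - k * z₀) - ℘[L] (y - k * z₀)) := by
  have hs := hasSum_wp_sub L' x y
  rw [← hs.tsum_eq, tsum_superlattice hp hz₀ hpz hL'
    (fun w => 1 / (x - w) ^ 2 - 1 / (y - w) ^ 2) hs.summable]
  refine Finset.sum_congr rfl fun k _ => ?_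
  have h1 := hasSum_wp_sub L (x - k * z₀) (y - k * z₀)
  rw [← h1.tsum_eq]
  refine tsum_congr fun l => ?_
  have e1 : x - ((l : ℂ) + k * z₀) = x - k * z₀ - l := by ring
  have e2 : y - ((l : ℂ) + k * z₀) = y - k * z₀ - l := by ring
  rw [e1, e2]

/-- at a half period the sign of `k z₀` does not matter -/
theorem wp_half_sub {L : PeriodPair} {x : ℂ} (hx : 2 * x ∈ L.lattice) (w : ℂ) :
    ℘[L] (x - w) = ℘[L] (x + w) := by
  rw [← L.weierstrassP_neg (x - w)]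
  apply wp_congr
  have : -(x - w) - (x + w) = -(2 * x) := by ring
  rw [this]
  exact L.lattice.neg_mem hx

/-! ### the partition statement on lattices -/

/-- Vélu's sums of differences of `℘_L` over the cosets of `⟨z₀⟩` -/
def latDiff (L : PeriodPair) (p : ℕ) (z₀ : ℂ) (x y : ℂ) : ℂ :=
  ∑ k ∈ Finset.range p, (℘[L] (x + k * z₀) - ℘[L] (y + k * z₀))

/-- `℘_{L'}(x) − ℘_{L'}(y)` at two half periods of `L` -/
theorem wp_super_sub_half {L L' : PeriodPair} {p : ℕ} {z₀ : ℂ} (hp : p.Prime)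
    (hz₀ : z₀ ∉ L.lattice) (hpz : (p : ℂ) * z₀ ∈ L.lattice)
    (hL' : L'.lattice = L.lattice ⊔ Submodule.span ℤ {z₀}) {x y : ℂ} (hx : 2 * x ∈ L.lattice)
    (hy : 2 * y ∈ L.lattice) : ℘[L'] x - ℘[L'] y = latDiff L p z₀ x y := by
  rw [wp_super_sub hp hz₀ hpz hL', latDiff]
  refine Finset.sum_congr rfl fun k _ => ?_
  rw [wp_half_sub hx, wp_half_sub hy]

/-- a point of `L + ℤ x` (`2x ∈ L`) killed by an odd `p` modulo `L` lies in `L` -/
theorem mem_of_mem_sup_half {L : PeriodPair} {p : ℕ} (hp : p.Prime) (hodd : p ≠ 2) {x z₀ : ℂ}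
    (hx : 2 * x ∈ L.lattice) (hpz : (p : ℂ) * z₀ ∈ L.lattice)
    (hm : z₀ ∈ L.lattice ⊔ Submodule.span ℤ {x}) : z₀ ∈ L.lattice := by
  obtain ⟨y, hy, z, hz, rfl⟩ := Submodule.mem_sup.1 hm
  obtain ⟨n, rfl⟩ := Submodule.mem_span_singleton.1 hz
  obtain ⟨m, hm'⟩ : ∃ m : ℕ, p = 2 * m + 1 := by
    rcases hp.eq_two_or_odd with h2 | ho
    · exact absurd h2 hodd
    · exact ⟨p / 2, by omega⟩
  have h2 : 2 * (y + n • x) ∈ L.lattice := by
    have e : 2 * (y + n • x) = (2 : ℤ) • y + n • (2 * x) := by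
      simp only [zsmul_eq_mul]; push_cast; ring
    rw [e]
    exact L.lattice.add_mem (L.lattice.smul_mem _ hy) (L.lattice.smul_mem _ hx)
  have e : y + n • x = (p : ℂ) * (y + n • x) - (m : ℤ) • (2 * (y + n • x)) := by
    simp only [zsmul_eq_mul, hm']; push_cast; ring
  rw [e]
  exact L.lattice.sub_mem hpz (L.lattice.smul_mem _ h2)

/-- **the partition statement on lattices.**  `L' = L + ℤ z₀` of odd prime index `p`, `a` a half
triple of `L`, `e i = ℘_L(a i)`, `D x y = latDiff L p z₀ x y`. -/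
theorem partner_lat {p : ℕ} [Fact p.Prime] (hodd : p ≠ 2) {L L' : PeriodPair} {z₀ : ℂ}
    (hz₀ : z₀ ∉ L.lattice) (hpz : (p : ℂ) * z₀ ∈ L.lattice)
    (hL' : L'.lattice = L.lattice ⊔ Submodule.span ℤ {z₀}) {a : Fin 3 → ℂ}
    (h : IsHalfTriple L a) :
    IsHalfTriple L' a ∧
    (∀ i j, ℘[L'] (a i) - ℘[L'] (a j) = latDiff L p z₀ (a i) (a j)) ∧
    (∀ i j, i ≠ j → latDiff L p z₀ (a i) (a j) ≠ 0) ∧
    jL L = Jfun (℘[L] (a 1) - ℘[L] (a 0)) (℘[L] (a 0) - ℘[L] (a 2)) ∧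
    jL L' = Jfun (latDiff L p z₀ (a 1) (a 0)) (latDiff L p z₀ (a 0) (a 2)) ∧
    ∀ i j k : Fin 3, i ≠ j → i ≠ k → j ≠ k →
      biEval₂ zbIncl (phiZ p)
        (Ffun (latDiff L p z₀ (a j) (a i)) (latDiff L p z₀ (a k) (a i)))
        (Ffun (℘[L] (a j) - ℘[L] (a i)) (℘[L] (a k) - ℘[L] (a i))) = 0 := by
  have hp : p.Prime := Fact.out
  have hS : IsSuper L L' p z₀ := ⟨hp, hodd, hz₀, hpz, hL'⟩
  have h' : IsHalfTriple L' a := hS.isHalfTriple h
  have hD : ∀ i j, ℘[L'] (a i) - ℘[L'] (a j) = latDiff L p z₀ (a i) (a j) := fun i j =>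
    wp_super_sub_half hp hz₀ hpz hL' (h.two_mul_mem i) (h.two_mul_mem j)
  refine ⟨h', hD, ?_, jL_eq_Jfun h, ?_, ?_⟩
  · intro i j hij
    rw [← hD i j]
    exact sub_ne_zero.mpr (h'.e_ne i j hij)
  · rw [jL_eq_Jfun h', hD 1 0, hD 0 2]
  · intro i j k hij hik hjk
    haveI : Fact (Nat.Prime 2) := ⟨Nat.prime_two⟩
    have hmem2 : ((2 : ℕ) : ℂ) * a i ∈ L.lattice := by
      have := h.two_mul_mem i
      simpa using this
    obtain ⟨Li, hLi, -⟩ := exists_superlattice L (p := 2) (h.notMem i) hmem2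
    have hz₀i : z₀ ∉ Li.lattice := by
      intro hm
      rw [hLi] at hm
      exact hz₀ (mem_of_mem_sup_half hp hodd (h.two_mul_mem i) hpz hm)
    have hpzi : (p : ℂ) * z₀ ∈ Li.lattice := by
      rw [hLi]
      exact Submodule.mem_sup_left hpz
    obtain ⟨Li', hLi', hΦ⟩ := exists_superlattice Li hz₀i hpzi
    have hLi'2 : Li'.lattice = L'.lattice ⊔ Submodule.span ℤ {a i} := by
      rw [hLi', hLi, hL', sup_assoc, sup_assoc, sup_comm (Submodule.span ℤ {a i})]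
    rw [jL_two_isog h' hij hik hjk hLi'2, jL_two_isog h hij hik hjk hLi, hD j i, hD k i] at hΦ
    exact hΦ

end Fermat.Agent.S12lib.Part
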