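/-
S12lib / Part / Curve  (helper3) — S12, block (L), the `ℂ`-CURVE layer of the partition step.

`E / ℂ` an elliptic curve, `Q` a point of odd prime order `p`, `T : Fin 3 → E(ℂ)` the three points of
order `2`.  With `d i j = x(T i) − x(T j)` and Vélu's sums
`d' i j = veluDiff E Q (T i) (T j) p = ∑_{k<p} (x(T i + kQ) − x(T j + kQ))`:

* `d' i j ≠ 0` for `i ≠ j`;
* `j(E) = J(d 1 0, d 0 2)`, `veluJ E Q p = J(d' 1 0, d' 0 2)`;
* `Φ_p(F(d' j i, d' k i), F(d j i, d k i)) = 0` for the three `2`-isogenous partners.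

Proof: the uniformisation `Ψ : ℂ → E(ℂ)` (`Unif.exists_uniformization`) turns everything into the
lattice statement `partner_lat` (the shift `−b₂/12` cancels in differences).
-/
import Fermat.Agent.S12lib.Part.Lat
import Fermat.Agent.S15lib.Dict.Unif.Main
import Fermat.Agent.S15lib.Dict.VeluGlue

set_option autoImplicit false
set_option linter.style.haveILetI false

noncomputable section

open Finset
open scoped PeriodPair

namespace Fermat.Agent.S12lib.Part

open WeierstrassCurve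
open Fermat.Agent.S15lib.Dict Fermat.Agent.S15lib.Dict.EA Fermat.Agent.S15lib.Dict.Lat
open Fermat.Agent.ProgramR.LevelOne
open Fermat.Agent.S28lib Fermat.Agent.S37lib.ConjNorm

/-! ### Vélu's sums of differences of abscissas -/

section Defs

variable {K : Type*} [Field K] [DecidableEq K]

/-- `∑_{k<p} (x(S + kQ) − x(T + kQ))`: the difference of the abscissas of the images of `S`, `T` on
Vélu's model of `E/⟨Q⟩` -/
def veluDiff (E : WeierstrassCurve K) (Q S T : E.toAffine.Point) (p : ℕ) : K :=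
  ∑ k ∈ Finset.range p, (ptX (S + k • Q) - ptX (T + k • Q))

theorem veluDiff_swap (E : WeierstrassCurve K) (Q S T : E.toAffine.Point) (p : ℕ) :
    veluDiff E Q S T p = -veluDiff E Q T S p := by
  unfold veluDiff
  rw [← Finset.sum_neg_distrib]
  exact Finset.sum_congr rfl fun k _ => by ring

theorem veluDiff_add (E : WeierstrassCurve K) (Q R S T : E.toAffine.Point) (p : ℕ) :
    veluDiff E Q R S p + veluDiff E Q S T p = veluDiff E Q R T p := by
  unfold veluDiff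
  rw [← Finset.sum_add_distrib]
  exact Finset.sum_congr rfl fun k _ => by ring

end Defs

/-! ### `veluJ` as the `j`-invariant of the superlattice -/

open VeluGlue in
/-- Vélu's invariants of `E/⟨Q⟩` are those of `L' = L + ℤ z₀` (helper2's computation in
`veluCStmt_of`, for a GIVEN uniformising lattice) -/
theorem veluJ_eq_jL {p : ℕ} [Fact p.Prime] (hodd : p ≠ 2) (E : WeierstrassCurve ℂ)
    (Q : E.toAffine.Point) {L L' : PeriodPair} {z₀ : ℂ} (hg2 : L.g₂ = E.c₄ / 12)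
    (hg3 : L.g₃ = E.c₆ / 216) (hz : z₀ ∉ L.lattice) (hpz : (p : ℂ) * z₀ ∈ L.lattice)
    (hL' : L'.lattice = L.lattice ⊔ Submodule.span ℤ {z₀})
    (hk : ∀ k : ℕ, ¬ p ∣ k →
      ptX (k • Q) = ℘[L] (k * z₀) - E.b₂ / 12 ∧ psi2 E (k • Q) = ℘'[L] (k * z₀)) :
    veluJ E Q p = jL L' ∧ E.c₄ ^ 3 / E.Δ = jL L := by
  have hp : p.Prime := Fact.out
  have hpodd : Odd p := hp.odd_of_ne_two hodd
  set P : ℕ → ℂ := fun k => L.weierstrassP ((k : ℂ) * z₀) with hP
  set D : ℕ → ℂ := fun k => L.derivWeierstrassP ((k : ℂ) * z₀) with hD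
  set wD : ℕ → ℂ := fun k => 6 * L.weierstrassP ((k : ℂ) * z₀) ^ 2 - L.g₂ / 2 with hwD
  have hnd : ∀ k ∈ Finset.Icc 1 (p - 1), ¬ p ∣ k := by
    intro k hk' hdvd
    simp only [Finset.mem_Icc] at hk'
    have := Nat.le_of_dvd (by omega) hdvd
    have := hp.two_le
    omega
  have hnd' : ∀ k ∈ Finset.Icc 1 ((p - 1) / 2), ¬ p ∣ k := by
    intro k hk'
    apply hnd
    simp only [Finset.mem_Icc] at hk' ⊢
    omega
  have hrel : ∀ k : ℕ, ¬ p ∣ k → D k ^ 2 = 4 * P k ^ 3 - L.g₂ * P k - L.g₃ := fun k hk' =>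
    L.derivWeierstrassP_sq _ (mul_not_mem_lattice L hp hz hpz hk')
  have hT : veluT E Q p = ∑ k ∈ Finset.Icc 1 ((p - 1) / 2), wD k := by
    unfold veluT
    refine Finset.sum_congr rfl fun k hk' => ?_
    rw [(hk k (hnd' k hk')).1, hwD]
    simp only
    rw [hg2, WeierstrassCurve.c₄]
    ring
  have hW : veluW E Q p = ∑ k ∈ Finset.Icc 1 ((p - 1) / 2),
      (D k ^ 2 + P k * wD k) - E.b₂ / 12 * veluT E Q p := by
    rw [hT, Finset.mul_sum, ← Finset.sum_sub_distrib]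
    unfold veluW
    refine Finset.sum_congr rfl fun k hk' => ?_
    rw [(hk k (hnd' k hk')).1, hrel k (hnd' k hk')]
    simp only [hP, hwD]
    rw [hg2, hg3, WeierstrassCurve.c₄, WeierstrassCurve.c₆]
    ring
  have hfull1 : ∑ k ∈ Finset.Icc 1 (p - 1), wD k = 2 * veluT E Q p := by
    rw [hT, sum_Icc_reflect hpodd (fun k => wD k), two_nsmul, two_mul]
    intro k hk1 hk2
    simp only [hwD]
    rw [wp_reflect L hpz (by omega)]
  have hfull2 : ∑ k ∈ Finset.Icc 1 (p - 1), (D k ^ 2 + P k * wD k) =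
      2 * ∑ k ∈ Finset.Icc 1 ((p - 1) / 2), (D k ^ 2 + P k * wD k) := by
    rw [sum_Icc_reflect hpodd (fun k => D k ^ 2 + P k * wD k), two_nsmul, two_mul]
    intro k hk1 hk2
    simp only [hwD, hP, hD]
    rw [wp_reflect L hpz (by omega), dwp_reflect L hpz (by omega)]
    ring
  -- the invariants of `L'`
  have h2 : L'.g₂ = L.g₂ + 10 * ∑ k ∈ Finset.Icc 1 (p - 1), wD k := by
    rw [g₂_superlattice hp hz hpz hL']
    rfl
  have h3 : L'.g₃ = L.g₃ + 14 * ∑ k ∈ Finset.Icc 1 (p - 1), (D k ^ 2 + P k * wD k) := by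
    rw [g₃_superlattice hp hz hpz hL']
    rfl
  set G : ℂ := ∑ k ∈ Finset.Icc 1 ((p - 1) / 2), (D k ^ 2 + P k * wD k) with hG
  have hC4 : veluC4 E Q p = 12 * L'.g₂ := by
    rw [h2, hfull1, hg2, veluC4]; ring
  have hC6 : veluC6 E Q p = 216 * L'.g₃ := by
    rw [h3, hfull2, hg3, veluC6, hW]; ring
  have hdisc : L.g₂ ^ 3 - 27 * L.g₃ ^ 2 = E.Δ := by
    rw [hg2, hg3]
    linear_combination (-(1 : ℂ) / 1728) * E.c_relation
  have hdiff : veluC4 E Q p ^ 3 - veluC6 E Q p ^ 2 = 1728 * (L'.g₂ ^ 3 - 27 * L'.g₃ ^ 2) := by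
    rw [hC4, hC6]; ring
  refine ⟨?_, ?_⟩
  · rw [veluJ, hdiff, hC4, jL]
    rw [show (1728 : ℂ) * (12 * L'.g₂) ^ 3 = 1728 * (1728 * L'.g₂ ^ 3) by ring,
      mul_div_mul_left _ _ (by norm_num : (1728 : ℂ) ≠ 0)]
  · rw [jL, hdisc, hg2]; congr 1; ring

/-! ### the partition statement over `ℂ` -/

/-- **the partition statement over `ℂ`.** -/
theorem partner_C {p : ℕ} [Fact p.Prime] (hodd : p ≠ 2) (E : WeierstrassCurve ℂ) (hΔ : E.Δ ≠ 0)
    (Q : E.toAffine.Point) (hQ : addOrderOf Q = p) (T : Fin 3 → E.toAffine.Point)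
    (hT : ∀ i, T i ≠ 0 ∧ 2 • T i = 0) (hinj : Function.Injective T) :
    (∀ i j, i ≠ j → veluDiff E Q (T i) (T j) p ≠ 0) ∧
    E.c₄ ^ 3 / E.Δ = Jfun (ptX (T 1) - ptX (T 0)) (ptX (T 0) - ptX (T 2)) ∧
    veluJ E Q p = Jfun (veluDiff E Q (T 1) (T 0) p) (veluDiff E Q (T 0) (T 2) p) ∧
    ∀ i j k : Fin 3, i ≠ j → i ≠ k → j ≠ k →
      biEval₂ zbIncl (phiZ p)
        (Ffun (veluDiff E Q (T j) (T i) p) (veluDiff E Q (T k) (T i) p))
        (Ffun (ptX (T j) - ptX (T i)) (ptX (T k) - ptX (T i))) = 0 := by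
  have hp : p.Prime := Fact.out
  obtain ⟨L, Ψ, hg2, hg3, hsurj, hker, hco⟩ := Unif.exists_uniformization E hΔ
  obtain ⟨z₀, hz₀⟩ := hsurj Q
  choose a ha using fun i => hsurj (T i)
  have hmul : ∀ k : ℕ, Ψ ((k : ℂ) * z₀) = k • Q := by
    intro k
    rw [← nsmul_eq_mul, map_nsmul, hz₀]
  have hmem : ∀ k : ℕ, (k : ℂ) * z₀ ∈ L.lattice ↔ p ∣ k := by
    intro k
    rw [← hker, hmul, ← hQ, addOrderOf_dvd_iff_nsmul_eq_zero]
  have hz : z₀ ∉ L.lattice := by
    intro hz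
    have h1 := (hmem 1).1 (by simpa using hz)
    exact hp.one_lt.ne' (Nat.dvd_one.1 h1)
  have hpz : (p : ℂ) * z₀ ∈ L.lattice := (hmem p).2 dvd_rfl
  have hk : ∀ k : ℕ, ¬ p ∣ k →
      ptX (k • Q) = ℘[L] (k * z₀) - E.b₂ / 12 ∧ psi2 E (k • Q) = ℘'[L] (k * z₀) := by
    intro k hk
    have hkz : (k : ℂ) * z₀ ∉ L.lattice := fun h => hk ((hmem k).1 h)
    have := hco _ hkz
    rwa [hmul] at this
  -- the half triple
  have hhalf : IsHalfTriple L a := by
    refine ⟨fun i hm => (hT i).1 ?_, fun i => ?_, fun i j hij hm => hij (hinj ?_)⟩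
    · rw [← ha i]
      exact (hker _).2 hm
    · rw [← hker, two_mul, map_add, ha i, ← two_nsmul]
      exact (hT i).2
    · have := (hker _).2 hm
      rw [map_sub, ha i, ha j, sub_eq_zero] at this
      exact this
  -- `T i + k Q = Ψ (a i + k z₀) ≠ 0`
  have hΨ : ∀ (i : Fin 3) (k : ℕ), Ψ (a i + k * z₀) = T i + k • Q := by
    intro i k
    rw [map_add, ha i, hmul]
  have hnot : ∀ (i : Fin 3) (k : ℕ), a i + k * z₀ ∉ L.lattice := by
    intro i k hm
    have h0 : T i + k • Q = 0 := by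
      rw [← hΨ i k]
      exact (hker _).2 hm
    have hTi : T i = -(k • Q) := eq_neg_of_add_eq_zero_left h0
    have hpQ : p • Q = 0 := by
      rw [← hQ]
      exact addOrderOf_nsmul_eq_zero Q
    have hpT : p • T i = 0 := by
      rw [hTi, neg_nsmul, ← mul_nsmul, mul_nsmul', hpQ, nsmul_zero, neg_zero]
    obtain ⟨m, hm'⟩ : ∃ m : ℕ, p = 2 * m + 1 := by
      rcases hp.eq_two_or_odd with h2 | ho
      · exact absurd h2 hodd
      · exact ⟨p / 2, by omega⟩
    apply (hT i).1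
    have : p • T i = m • (2 • T i) + T i := by
      rw [hm', add_smul, mul_comm, mul_smul, one_smul]
    rw [hpT, (hT i).2] at this
    simpa using this.symm
  have hx : ∀ (i : Fin 3) (k : ℕ), ptX (T i + k • Q) = ℘[L] (a i + k * z₀) - E.b₂ / 12 := by
    intro i k
    rw [← hΨ i k]
    exact (hco _ (hnot i k)).1
  have hx0 : ∀ i : Fin 3, ptX (T i) = ℘[L] (a i) - E.b₂ / 12 := by
    intro i
    have := hx i 0
    simpa using this
  have hd : ∀ i j : Fin 3, ptX (T i) - ptX (T j) = ℘[L] (a i) - ℘[L] (a j) := by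
    intro i j
    rw [hx0 i, hx0 j]
    ring
  have hd' : ∀ i j : Fin 3, veluDiff E Q (T i) (T j) p = latDiff L p z₀ (a i) (a j) := by
    intro i j
    unfold veluDiff latDiff
    refine Finset.sum_congr rfl fun k _ => ?_
    rw [hx i k, hx j k]
    ring
  -- the superlattice
  obtain ⟨L', hL', -⟩ := exists_superlattice L hz hpz
  obtain ⟨hJ', hJ⟩ := veluJ_eq_jL hodd E Q hg2 hg3 hz hpz hL' hk
  obtain ⟨-, -, hne, hjL, hjL', hΦ⟩ := partner_lat hodd hz hpz hL' hhalf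
  refine ⟨?_, ?_, ?_, ?_⟩
  · intro i j hij
    rw [hd' i j]
    exact hne i j hij
  · rw [hJ, hjL, hd 1 0, hd 0 2]
  · rw [hJ', hjL', hd' 1 0, hd' 0 2]
  · intro i j k hij hik hjk
    rw [hd' j i, hd' k i, hd j i, hd k i]
    exact hΦ i j k hij hik hjk

end Fermat.Agent.S12lib.Part
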