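/-
S12lib / Part / RootLat  (helper5) — S12, block (L): the roots of `Φ_p(X; j(Λ))`, lattice level.

`exists_superlattice_of_root` : every root of `Φ_p(X; j(Λ))` is `j(Λ + ℤ z₀)` for some `z₀ ∉ Λ` with
`p z₀ ∈ Λ` (the `p + 1` roots `j((τ+b)/p)`, `j(pτ)` of `psiPoly p τ` are the invariants of the `p + 1`
superlattices of index `p`).
-/
import Fermat.Agent.S15lib.Dict.LatSum
import Fermat.Agent.S15lib.Dict.EA.Half

set_option autoImplicit false
set_option linter.style.haveILetI false
set_option linter.unusedSectionVars false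

noncomputable section

namespace Fermat.Agent.S12lib.Part

open Complex ModularForm Finset
open UpperHalfPlane hiding I
open Fermat.Agent.ProgramR.LevelOne
open Fermat.Agent.S15lib.Dict
open Fermat.Agent.S28lib Fermat.Agent.S37lib.ConjNorm
open scoped PeriodPair

/-! ### the roots of `Φ_p(X; j(Λ))` -/

section Roots

theorem inv_natCast_den_ne_one {p : ℕ} (hp : p.Prime) : ¬ ((1 / p : ℚ).den = 1) := by
  intro h
  have h1 : ((1 / p : ℚ).num : ℚ) = 1 / p := Rat.den_eq_one_iff _ |>.1 h
  have hpQ : (p : ℚ) ≠ 0 := by exact_mod_cast hp.ne_zero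
  have h2 : ((1 / p : ℚ).num : ℚ) * p = 1 := by
    rw [h1]
    field_simp
  have h3 : (1 / p : ℚ).num * (p : ℤ) = 1 := by exact_mod_cast h2
  have h4 : (p : ℤ) ∣ 1 := ⟨(1 / p : ℚ).num, by rw [mul_comm]; exact h3.symm⟩
  have h5 : p ∣ 1 := by exact_mod_cast h4
  exact hp.one_lt.ne' (Nat.dvd_one.1 h5)

/-- every root of `Φ_p(X; j(Λ))` is `j(Λ + ℤ z₀)` for some `p`-division point `z₀` -/
theorem exists_superlattice_of_root (L : PeriodPair) {p : ℕ} [Fact p.Prime] {r : ℂ}
    (hr : biEval₂ zbIncl (phiZ p) r (Lat.jL L) = 0) :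
    ∃ z₀ : ℂ, z₀ ∉ L.lattice ∧ (p : ℂ) * z₀ ∈ L.lattice ∧
      ∃ L' : PeriodPair, L'.lattice = L.lattice ⊔ Submodule.span ℤ {z₀} ∧ Lat.jL L' = r := by
  have hp : p.Prime := Fact.out
  have hp0 : p ≠ 0 := hp.ne_zero
  have hpC : (p : ℂ) ≠ 0 := by exact_mod_cast hp0
  obtain ⟨lam, hlam, τ, hL⟩ := Lat.exists_oriented L
  rw [Lat.jL_congr hL, Lat.jL_periodPairOf, Lat.biEval₂_phiZ_jInv, psiPoly, Polynomial.eval_mul,
    mul_eq_zero, Polynomial.eval_prod, Finset.prod_eq_zero_iff] at hr
  rw [hL]
  have hτmem : lam * (τ : ℂ) ∈ (periodPairOf lam hlam τ).lattice :=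
    (periodPairOf lam hlam τ).ω₁_mem_lattice
  have hlmem : lam ∈ (periodPairOf lam hlam τ).lattice :=
    (periodPairOf lam hlam τ).ω₂_mem_lattice
  rcases hr with ⟨b, hb, hrb⟩ | hrd
  · -- `r = j((τ + b)/p)`
    have hrb' : r = jInv (heckeMatrix p b • τ) := by
      simpa [sub_eq_zero] using hrb
    have hcoe : ((heckeMatrix p b • τ : ℍ) : ℂ) = ((τ : ℂ) + b) / p :=
      coe_heckeMatrix_smul hp0 b τ
    refine ⟨lam * (((τ : ℂ) + b) / p), ?_, ?_,
      periodPairOf lam hlam (heckeMatrix p b • τ), ?_, ?_⟩
    · refine EA.notMem_of_rat (periodPairOf lam hlam τ) (1 / p) (b / p)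
        (fun h => inv_natCast_den_ne_one hp h.1) ?_
      show lam * (((τ : ℂ) + b) / p) = ((1 / p : ℚ) : ℂ) * (lam * τ) + ((b / p : ℚ) : ℂ) * lam
      push_cast
      field_simp
    · rw [mem_lattice_periodPairOf]
      refine ⟨1, b, ?_⟩
      push_cast
      field_simp
    · apply le_antisymm
      · rw [Lat.lattice_periodPairOf, Submodule.span_le]
        intro x hx
        rw [Set.mem_insert_iff, Set.mem_singleton_iff] at hx
        rcases hx with rfl | rfl
        · rw [hcoe]
          exact Submodule.mem_sup_right (Submodule.subset_span rfl)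
        · exact Submodule.mem_sup_left hlmem
      · apply sup_le
        · rw [Lat.lattice_periodPairOf lam hlam τ, Submodule.span_le]
          intro x hx
          rw [Set.mem_insert_iff, Set.mem_singleton_iff] at hx
          rw [SetLike.mem_coe, mem_lattice_periodPairOf]
          rcases hx with rfl | rfl
          · refine ⟨p, -b, ?_⟩
            rw [hcoe]
            push_cast
            field_simp
            ring
          · refine ⟨0, 1, ?_⟩
            push_cast
            ring
        · rw [Submodule.span_le, Set.singleton_subset_iff, SetLike.mem_coe,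
            mem_lattice_periodPairOf]
          refine ⟨1, 0, ?_⟩
          rw [hcoe]
          push_cast
          ring
    · rw [hrb', Lat.jL_periodPairOf]
  · -- `r = j(pτ)`
    have hrd' : r = jInv (heckeDiagMatrix p • τ) := by
      simpa [sub_eq_zero] using hrd
    have hcoe : ((heckeDiagMatrix p • τ : ℍ) : ℂ) = (p : ℂ) * τ := coe_heckeDiagMatrix_smul hp0 τ
    have hlam' : lam / p ≠ 0 := div_ne_zero hlam hpC
    refine ⟨lam / p, ?_, ?_, periodPairOf (lam / p) hlam' (heckeDiagMatrix p • τ), ?_, ?_⟩
    · refine EA.notMem_of_rat (periodPairOf lam hlam τ) 0 (1 / p)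
        (fun h => inv_natCast_den_ne_one hp h.2) ?_
      show lam / p = ((0 : ℚ) : ℂ) * (lam * τ) + ((1 / p : ℚ) : ℂ) * lam
      push_cast
      field_simp
      ring
    · have : (p : ℂ) * (lam / p) = lam := by field_simp
      rw [this]
      exact hlmem
    · apply le_antisymm
      · rw [Lat.lattice_periodPairOf, Submodule.span_le]
        intro x hx
        rw [Set.mem_insert_iff, Set.mem_singleton_iff] at hx
        rcases hx with rfl | rfl
        · rw [hcoe]
          have : lam / p * ((p : ℂ) * τ) = lam * τ := by field_simp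
          rw [this]
          exact Submodule.mem_sup_left hτmem
        · exact Submodule.mem_sup_right (Submodule.subset_span rfl)
      · apply sup_le
        · rw [Lat.lattice_periodPairOf lam hlam τ, Submodule.span_le]
          intro x hx
          rw [Set.mem_insert_iff, Set.mem_singleton_iff] at hx
          rw [SetLike.mem_coe, mem_lattice_periodPairOf]
          rcases hx with rfl | rfl
          · refine ⟨1, 0, ?_⟩
            rw [hcoe]
            push_cast
            field_simp
            ring
          · refine ⟨0, p, ?_⟩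
            push_cast
            field_simp
            ring
        · rw [Submodule.span_le, Set.singleton_subset_iff, SetLike.mem_coe,
            mem_lattice_periodPairOf]
          refine ⟨0, 1, ?_⟩
          push_cast
          ring
    · rw [hrd', Lat.jL_periodPairOf]

end Roots

end Fermat.Agent.S12lib.Part
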