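/-
S12lib / Part / RootC  (helper5) — S12, block (L): the roots of `Φ_p(X; j(E))` over `ℂ`.

`root_eq_veluJ_C` : every root of `Φ_p(X; j(E))` is Vélu's `veluJ E Q p` for a point `Q` of order `p`
(uniformisation `ℂ/Λ ≃ E(ℂ)`, `exists_superlattice_of_root`, and helper3's `veluJ_eq_jL`).
-/
import Fermat.Agent.S12lib.Part.Curve
import Fermat.Agent.S12lib.Part.RootLat

set_option autoImplicit false
set_option linter.style.haveILetI false
set_option linter.unusedSectionVars false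

noncomputable section

namespace Fermat.Agent.S12lib.Part

open WeierstrassCurve Finset
open Fermat.Agent.ProgramR.LevelOne
open Fermat.Agent.S15lib.Dict
open Fermat.Agent.S28lib Fermat.Agent.S37lib.ConjNorm
open scoped PeriodPair

/-- **roots of the modular equation over `ℂ`**: every root of `Φ_p(X; j(E))` is Vélu's `j` for some
point of order `p`. -/
theorem root_eq_veluJ_C {p : ℕ} [Fact p.Prime] (hodd : p ≠ 2) (E : WeierstrassCurve ℂ)
    (hΔ : E.Δ ≠ 0) {r : ℂ} (hr : biEval₂ zbIncl (phiZ p) r (E.c₄ ^ 3 / E.Δ) = 0) :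
    ∃ Q : E.toAffine.Point, addOrderOf Q = p ∧ r = veluJ E Q p := by
  have hp : p.Prime := Fact.out
  obtain ⟨L, Ψ, hg2, hg3, hsurj, hker, hco⟩ := Unif.exists_uniformization E hΔ
  have hjL : E.c₄ ^ 3 / E.Δ = Lat.jL L := by
    have hdisc : L.g₂ ^ 3 - 27 * L.g₃ ^ 2 = E.Δ := by
      rw [hg2, hg3]
      linear_combination (-(1 : ℂ) / 1728) * E.c_relation
    rw [Lat.jL, hdisc, hg2]
    congr 1
    ring
  rw [hjL] at hr
  obtain ⟨z₀, hz, hpz, L₁, hL₁, hjr⟩ := exists_superlattice_of_root L hr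
  have hQ : addOrderOf (Ψ z₀) = p := by
    apply addOrderOf_eq_prime
    · rw [← map_nsmul, nsmul_eq_mul]
      exact (hker _).2 hpz
    · exact fun h => hz ((hker _).1 h)
  refine ⟨Ψ z₀, hQ, ?_⟩
  have hmul : ∀ k : ℕ, Ψ ((k : ℂ) * z₀) = k • Ψ z₀ := by
    intro k
    rw [← nsmul_eq_mul, map_nsmul]
  have hmem : ∀ k : ℕ, (k : ℂ) * z₀ ∈ L.lattice ↔ p ∣ k := by
    intro k
    rw [← hker, hmul, ← hQ, addOrderOf_dvd_iff_nsmul_eq_zero]
  have hk : ∀ k : ℕ, ¬ p ∣ k → ptX (k • Ψ z₀) = ℘[L] ((k : ℂ) * z₀) - E.b₂ / 12 ∧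
      psi2 E (k • Ψ z₀) = ℘'[L] ((k : ℂ) * z₀) := by
    intro k hk
    have hkz : (k : ℂ) * z₀ ∉ L.lattice := fun h => hk ((hmem k).1 h)
    have := hco _ hkz
    rwa [hmul] at this
  rw [← hjr]
  exact (veluJ_eq_jL hodd E (Ψ z₀) hg2 hg3 hz hpz hL₁ hk).1.symm

end Fermat.Agent.S12lib.Part
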