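/-
S12lib / Part / Qb  (helper5) — S12, block (L) "partners": transfer to `ℚ̄` and rationality.

* `partner_Qb`       : `partner_C` over `ℚ̄` (with `Gink.intToQbar` instead of `zbIncl`);
* `root_eq_veluJ_Qb` : every root of `Φ_p(X; j(E))` in `ℚ̄` is `veluJ E Q p` for a point `Q` of order `p`;
* `veluDiff_nsmul`   : `veluDiff` only depends on the group generated by `Q`;
* `veluDiff_galois`, `veluJ_galois` : Galois invariance when `⟨Q⟩` is Galois-stable and the
  `2`-torsion is rational.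

The lattice layer (`Part/Defs`, `Part/Lat`) and the curve layer over `ℂ` (`Part/Curve`: `veluDiff`,
`partner_C`) are helper3's; the roots (`Part/RootLat`, `Part/RootC`) and this file are helper5's.
-/
import Fermat.Agent.S12lib.Part.Curve
import Fermat.Agent.S12lib.Part.RootC
import Fermat.Agent.S15lib.Dict.Transfer
import Fermat.Agent.S41lib.NE.TorsionCard
import Fermat.Prelude.Def_FLTPrelim_GaloisRep

set_option autoImplicit false
set_option linter.style.haveILetI false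
set_option linter.unusedSectionVars false

noncomputable section

namespace Fermat.Agent.S12lib.Part

open WeierstrassCurve WeierstrassCurve.Affine WeierstrassCurve.Affine.Point Finset
open Fermat.Agent.S15lib.Dict
open Fermat.Agent.S28lib Fermat.Agent.S37lib.ConjNorm Fermat.Agent.S18lib
open Fermat.Agent.S58lib.Lat

local notation "Qb" => AlgebraicClosure ℚ
local notation "GQ" => (AlgebraicClosure ℚ ≃ₐ[ℚ] AlgebraicClosure ℚ)

/-! ### compatibility with field embeddings -/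

section Map

variable {K K' : Type*} [Field K] [Field K'] [DecidableEq K] [DecidableEq K']

theorem veluDiff_pmap (W : WeierstrassCurve K) (f : K →+* K') (Q S T : W.toAffine.Point) (p : ℕ) :
    veluDiff (W.map f) (pmap (W := W.toAffine) f rfl Q) (pmap (W := W.toAffine) f rfl S)
      (pmap (W := W.toAffine) f rfl T) p = f (veluDiff W Q S T p) := by
  rw [veluDiff, veluDiff, map_sum]
  refine Finset.sum_congr rfl fun k _ => ?_
  rw [← map_nsmul, ← map_add, ← map_add, ptX_pmap, ptX_pmap, map_sub]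

/-- torsion points of the base change to a bigger algebraically closed field come from the small
field (both torsion groups have `n²` elements). -/
theorem exists_pmap_eq_of_nsmul_eq_zero [IsAlgClosed K] [CharZero K] [IsAlgClosed K'] [CharZero K']
    (W : WeierstrassCurve K) (hΔ : W.Δ ≠ 0) (f : K →+* K') {n : ℕ} (hn : 2 ≤ n)
    (P' : (W.map f).toAffine.Point) (hP' : n • P' = 0) :
    ∃ P : W.toAffine.Point, n • P = 0 ∧ pmap (W := W.toAffine) f rfl P = P' := by
  have hΔ' : (W.map f).Δ ≠ 0 := by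
    rw [WeierstrassCurve.map_Δ]
    exact (_root_.map_ne_zero f).2 hΔ
  have hcA := Fermat.Agent.S41lib.NE.card_torsionBy_eq_sq W.toAffine hΔ n hn
  have hcB := Fermat.Agent.S41lib.NE.card_torsionBy_eq_sq (W.map f).toAffine hΔ' n hn
  have hn2 : n ^ 2 ≠ 0 := pow_ne_zero 2 (by omega)
  haveI : Finite (Submodule.torsionBy ℤ (W.map f).toAffine.Point n) :=
    Nat.finite_of_card_ne_zero (by rw [hcB]; exact hn2)
  let g : Submodule.torsionBy ℤ W.toAffine.Point n →
      Submodule.torsionBy ℤ (W.map f).toAffine.Point n := fun P =>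
    ⟨pmap (W := W.toAffine) f rfl P.1, by
      have hP := P.2
      rw [Submodule.mem_torsionBy_iff] at hP ⊢
      rw [← map_zsmul, hP, _root_.map_zero]⟩
  have hginj : Function.Injective g := by
    intro P P' h
    apply Subtype.ext
    exact pmap_injective f rfl (congrArg Subtype.val h)
  have hgbij : Function.Bijective g :=
    hginj.bijective_of_nat_card_le (by rw [hcA, hcB])
  have hmem : P' ∈ Submodule.torsionBy ℤ (W.map f).toAffine.Point n := by
    rw [Submodule.mem_torsionBy_iff, natCast_zsmul]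
    exact hP'
  obtain ⟨P, hP⟩ := hgbij.2 ⟨P', hmem⟩
  refine ⟨P.1, ?_, congrArg Subtype.val hP⟩
  have := P.2
  rwa [Submodule.mem_torsionBy_iff, natCast_zsmul] at this

end Map

/-! ### the transfer -/

/-- **block (L) over `ℚ̄`** -/
theorem partner_Qb {p : ℕ} [Fact p.Prime] (hodd : p ≠ 2) (E : WeierstrassCurve Qb) (hΔ : E.Δ ≠ 0)
    (Q : E.toAffine.Point) (hQ : addOrderOf Q = p) (T : Fin 3 → E.toAffine.Point)
    (hT : ∀ i, T i ≠ 0 ∧ 2 • T i = 0) (hinj : Function.Injective T) :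
    (∀ i j, i ≠ j → veluDiff E Q (T i) (T j) p ≠ 0) ∧
      E.c₄ ^ 3 / E.Δ = Jfun (ptX (T 1) - ptX (T 0)) (ptX (T 0) - ptX (T 2)) ∧
      veluJ E Q p = Jfun (veluDiff E Q (T 1) (T 0) p) (veluDiff E Q (T 0) (T 2) p) ∧
      ∀ i j k, i ≠ j → i ≠ k → j ≠ k →
        biEval₂ (Gink.intToQbar : Zb →+* Qb) (phiZ p)
          (Ffun (veluDiff E Q (T j) (T i) p) (veluDiff E Q (T k) (T i) p))
          (Ffun (ptX (T j) - ptX (T i)) (ptX (T k) - ptX (T i))) = 0 := by
  obtain ⟨ι, hι⟩ := exists_embedding_compat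
  have hcomp : ι.comp (Gink.intToQbar : Zb →+* Qb) = zbIncl := RingHom.ext hι
  have hΔ' : (E.map ι).Δ ≠ 0 := by
    rw [WeierstrassCurve.map_Δ]
    exact (_root_.map_ne_zero ι).2 hΔ
  have hQ' : addOrderOf (pmap (W := E.toAffine) ι rfl Q) = p := by
    rw [addOrderOf_injective (pmap (W := E.toAffine) ι rfl) (pmap_injective ι rfl) Q]
    exact hQ
  have hT' : ∀ i, pmap (W := E.toAffine) ι rfl (T i) ≠ 0 ∧
      2 • pmap (W := E.toAffine) ι rfl (T i) = 0 := by
    intro i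
    refine ⟨?_, ?_⟩
    · exact (map_ne_zero_iff _ (pmap_injective ι rfl)).2 (hT i).1
    · rw [← map_nsmul, (hT i).2, _root_.map_zero]
  have hinj' : Function.Injective fun i => pmap (W := E.toAffine) ι rfl (T i) :=
    (pmap_injective ι rfl).comp hinj
  obtain ⟨h1, h2, h3, h4⟩ := partner_C hodd (E.map ι) hΔ' (pmap (W := E.toAffine) ι rfl Q) hQ'
    (fun i => pmap (W := E.toAffine) ι rfl (T i)) hT' hinj'
  simp only [veluDiff_pmap, ptX_pmap, veluJ_pmap, ← map_sub, ← map_Jfun, ← map_Ffun] at h1 h2 h3 h4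
  refine ⟨?_, ι.injective ?_, ι.injective h3, ?_⟩
  · intro i j hij h0
    apply h1 i j hij
    rw [h0, _root_.map_zero]
  · rw [← h2, WeierstrassCurve.map_Δ, WeierstrassCurve.map_c₄, ← map_pow, ← map_div₀]
  · intro i j k hij hik hjk
    have := h4 i j k hij hik hjk
    rw [← hcomp, ← map_biEval₂] at this
    exact ι.injective (by rw [this, _root_.map_zero])

/-- **roots of the modular equation over `ℚ̄`** -/
theorem root_eq_veluJ_Qb {p : ℕ} [Fact p.Prime] (hodd : p ≠ 2) (E : WeierstrassCurve Qb)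
    (hΔ : E.Δ ≠ 0) {r : Qb}
    (hr : biEval₂ (Gink.intToQbar : Zb →+* Qb) (phiZ p) r (E.c₄ ^ 3 / E.Δ) = 0) :
    ∃ Q : E.toAffine.Point, addOrderOf Q = p ∧ r = veluJ E Q p := by
  have hp : p.Prime := Fact.out
  obtain ⟨ι, hι⟩ := exists_embedding_compat
  have hcomp : ι.comp (Gink.intToQbar : Zb →+* Qb) = zbIncl := RingHom.ext hι
  have hΔ' : (E.map ι).Δ ≠ 0 := by
    rw [WeierstrassCurve.map_Δ]
    exact (_root_.map_ne_zero ι).2 hΔ
  have hr' : biEval₂ zbIncl (phiZ p) (ι r) ((E.map ι).c₄ ^ 3 / (E.map ι).Δ) = 0 := by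
    rw [WeierstrassCurve.map_Δ, WeierstrassCurve.map_c₄, ← map_pow, ← map_div₀, ← hcomp,
      ← map_biEval₂, hr, _root_.map_zero]
  obtain ⟨Q', hQ', hrQ'⟩ := root_eq_veluJ_C hodd (E.map ι) hΔ' hr'
  have hpQ' : p • Q' = 0 := by
    rw [← hQ']
    exact addOrderOf_nsmul_eq_zero Q'
  haveI : IsAlgClosed Qb := AlgebraicClosure.isAlgClosed ℚ
  obtain ⟨Q, -, rfl⟩ := exists_pmap_eq_of_nsmul_eq_zero E hΔ ι hp.two_le Q' hpQ'
  refine ⟨Q, ?_, ι.injective ?_⟩
  · rwa [addOrderOf_injective (pmap (W := E.toAffine) ι rfl) (pmap_injective ι rfl) Q] at hQ'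
  · rw [hrQ', veluJ_pmap]

/-! ### `veluDiff` only depends on the subgroup `⟨Q⟩` -/

section Reindex

variable {G : Type*} [AddCommGroup G] {M : Type*} [AddCommMonoid M]

theorem mod_nsmul_of_nsmul_eq_zero {Q : G} {p : ℕ} (hQ : p • Q = 0) (n : ℕ) :
    (n % p) • Q = n • Q := by
  conv_rhs => rw [← Nat.mod_add_div n p]
  rw [add_nsmul, mul_nsmul, hQ, smul_zero, add_zero]

theorem sum_range_eq_sum_zmod {p : ℕ} [NeZero p] (g : ℕ → M) :
    ∑ k ∈ Finset.range p, g k = ∑ x : ZMod p, g x.val := by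
  refine Finset.sum_nbij' (fun k => (k : ZMod p)) (fun x => x.val) ?_ ?_ ?_ ?_ ?_
  · intro k _
    exact Finset.mem_univ _
  · intro x _
    exact Finset.mem_range.2 (ZMod.val_lt x)
  · intro k hk
    exact ZMod.val_natCast_of_lt (Finset.mem_range.1 hk)
  · intro x _
    exact ZMod.natCast_zmod_val x
  · intro k hk
    rw [ZMod.val_natCast_of_lt (Finset.mem_range.1 hk)]

/-- a sum over the multiples of `Q` does not change if `Q` is replaced by `m • Q`, `p ∤ m` -/
theorem sum_range_nsmul_reindex {p : ℕ} [Fact p.Prime] {Q : G} (hQ : p • Q = 0) {m : ℕ}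
    (hm : ¬ p ∣ m) (g : G → M) :
    ∑ k ∈ Finset.range p, g (k • (m • Q)) = ∑ k ∈ Finset.range p, g (k • Q) := by
  have hp : p.Prime := Fact.out
  haveI : NeZero p := ⟨hp.ne_zero⟩
  have hm0 : (m : ZMod p) ≠ 0 := by
    rw [Ne, ZMod.natCast_eq_zero_iff]
    exact hm
  rw [sum_range_eq_sum_zmod (fun k => g (k • (m • Q))), sum_range_eq_sum_zmod (fun k => g (k • Q)),
    ← Equiv.sum_comp (Equiv.mulRight₀ (m : ZMod p) hm0) (fun x : ZMod p => g (x.val • Q))]
  refine Finset.sum_congr rfl fun x _ => ?_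
  congr 1
  rw [Equiv.mulRight₀_apply, ZMod.val_mul, ZMod.val_natCast, mod_nsmul_of_nsmul_eq_zero hQ,
    mul_nsmul', mod_nsmul_of_nsmul_eq_zero hQ]

end Reindex

section VeluDiff

variable {K : Type*} [Field K] [DecidableEq K]

theorem veluDiff_nsmul (E : WeierstrassCurve K) {p : ℕ} [Fact p.Prime] {Q : E.toAffine.Point}
    (hQ : p • Q = 0) {m : ℕ} (hm : ¬ p ∣ m) (S T : E.toAffine.Point) :
    veluDiff E (m • Q) S T p = veluDiff E Q S T p :=
  sum_range_nsmul_reindex hQ hm (fun R => ptX (S + R) - ptX (T + R))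

end VeluDiff

/-! ### Galois invariance -/

section Galois

variable (W' : WeierstrassCurve ℚ)

theorem ptX_galois_smul (σ : GQ) (P : (W'⁄Qb).Point) : ptX (σ • P) = σ (ptX P) := by
  rcases P with _ | ⟨x, y, h⟩
  · exact (_root_.map_zero σ).symm
  · rfl

theorem galois_smul_nsmul (σ : GQ) (k : ℕ) (P : (W'⁄Qb).Point) : σ • (k • P) = k • (σ • P) :=
  (DistribSMul.toAddMonoidHom (W'⁄Qb).Point σ).map_nsmul k P

theorem galois_smul_add (σ : GQ) (P R : (W'⁄Qb).Point) : σ • (P + R) = σ • P + σ • R :=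
  (DistribSMul.toAddMonoidHom (W'⁄Qb).Point σ).map_add P R

theorem galois_smul_eq_zero (σ : GQ) {P : (W'⁄Qb).Point} (h : σ • P = 0) : P = 0 := by
  have h1 : σ⁻¹ • (σ • P) = σ⁻¹ • (0 : (W'⁄Qb).Point) := congrArg (fun R => σ⁻¹ • R) h
  rw [inv_smul_smul] at h1
  rw [h1]
  exact smul_zero (A := (W'⁄Qb).Point) σ⁻¹

theorem veluDiff_galois_smul (σ : GQ) (Q S T : (W'⁄Qb).Point) (p : ℕ) :
    σ (veluDiff (W'⁄Qb) Q S T p) = veluDiff (W'⁄Qb) (σ • Q) (σ • S) (σ • T) p := by
  rw [veluDiff, veluDiff, map_sum]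
  refine Finset.sum_congr rfl fun k _ => ?_
  rw [map_sub, ← ptX_galois_smul, ← ptX_galois_smul, galois_smul_add, galois_smul_add,
    galois_smul_nsmul]

/-- **rationality of the Vélu differences**: `⟨Q⟩` Galois-stable, `S`, `T` rational. -/
theorem veluDiff_galois {p : ℕ} [Fact p.Prime] (σ : GQ) {Q S T : (W'⁄Qb).Point}
    (hQ : addOrderOf Q = p) (hσ : ∃ m : ℕ, σ • Q = m • Q) (hS : σ • S = S) (hT : σ • T = T) :
    σ (veluDiff (W'⁄Qb) Q S T p) = veluDiff (W'⁄Qb) Q S T p := by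
  have hp : p.Prime := Fact.out
  obtain ⟨m, hm⟩ := hσ
  have hpQ : p • Q = 0 := by
    rw [← hQ]
    exact addOrderOf_nsmul_eq_zero Q
  have hQ0 : Q ≠ 0 := by
    rintro rfl
    rw [addOrderOf_zero] at hQ
    exact hp.one_lt.ne hQ
  have hmp : ¬ p ∣ m := by
    intro hd
    have h0 : m • Q = 0 := by
      rw [← hQ] at hd
      exact addOrderOf_dvd_iff_nsmul_eq_zero.1 hd
    rw [← hm] at h0
    exact hQ0 (galois_smul_eq_zero W' σ h0)
  rw [veluDiff_galois_smul, hS, hT, hm]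
  exact veluDiff_nsmul (W'⁄Qb) hpQ hmp S T

/-- **rationality of `j(E/⟨Q⟩)`** for a curve with rational `2`-torsion and a Galois-stable `⟨Q⟩` -/
theorem veluJ_galois {p : ℕ} [Fact p.Prime] (hodd : p ≠ 2) (hΔ : (W'⁄Qb).Δ ≠ 0) (σ : GQ)
    {Q : (W'⁄Qb).Point} (hQ : addOrderOf Q = p) (hσ : ∃ m : ℕ, σ • Q = m • Q)
    (T : Fin 3 → (W'⁄Qb).Point) (hT : ∀ i, T i ≠ 0 ∧ 2 • T i = 0) (hinj : Function.Injective T)
    (hTσ : ∀ i, σ • T i = T i) :
    σ (veluJ (W'⁄Qb) Q p) = veluJ (W'⁄Qb) Q p := by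
  obtain ⟨-, -, h3, -⟩ := partner_Qb hodd (W'⁄Qb) hΔ Q hQ T hT hinj
  rw [h3, ← RingHom.coe_coe, map_Jfun]
  simp only [RingHom.coe_coe]
  rw [veluDiff_galois W' σ hQ hσ (hTσ 1) (hTσ 0), veluDiff_galois W' σ hQ hσ (hTσ 0) (hTσ 2)]

end Galois

end Fermat.Agent.S12lib.Part
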